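import Fermat.Agent.S26.Pic.Defs
import Fermat.Agent.S26.SpecPic

/-!
# Row S26, block PIC: the Čech model as a `PicTheory` (helper347)

`cechPic : PicTheory` with `cechPic.Pic X = Additive (PicGrp X)`, and `cechPic.IsLocal`.
-/

set_option autoImplicit false

open AlgebraicGeometry CategoryTheory TopologicalSpace Opposite

universe u

namespace Fermat.Agent.S26.Pic

noncomputable section

variable {X Y : Scheme.{u}}

/-- The Picard functor by Čech cocycles indexed by points. -/
def cechPic : PicTheory.{u} where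
  Pic X := Additive (PicGrp X)
  addCommGroup _ := Additive.addCommGroup
  map f := MonoidHom.toAdditive (PicGrp.map f)
  map_id _ c := PicGrp.map_id c.toMul
  map_comp f g c := PicGrp.map_comp f g c.toMul

/-- The class of a cocycle in `cechPic.Pic X`. -/
def cl (c : Cocycle X) : cechPic.Pic X := Additive.ofMul (PicGrp.mk c)

lemma cl_surjective : Function.Surjective (cl : Cocycle X → cechPic.Pic X) := fun a => by
  obtain ⟨c, hc⟩ := PicGrp.mk_surjective (Additive.toMul a)
  exact ⟨c, congrArg Additive.ofMul hc⟩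

lemma cl_eq_cl {c c' : Cocycle X} : cl c = cl c' ↔ Cocycle.Rel c c' :=
  Additive.ofMul.injective.eq_iff.trans PicGrp.mk_eq_mk

lemma cl_mul (c c' : Cocycle X) : cl (c.mul c') = cl c + cl c' := rfl

lemma cl_one : cl (Cocycle.one X) = 0 := rfl

lemma cl_inv (c : Cocycle X) : cl c.inv = -cl c := rfl

lemma map_cl (f : X ⟶ Y) (c : Cocycle Y) : cechPic.map f (cl c) = cl (c.pullback f) := rfl

/-- A class is trivial iff the cocycle is a coboundary after shrinking. -/
lemma cl_eq_zero_iff {c : Cocycle X} :
    cl c = 0 ↔ ∃ (V : X → X.Opens) (_ : ∀ x, x ∈ V x) (hc : ∀ x, V x ≤ c.U x)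
      (h : ∀ x, Γ(X, V x)ˣ), ∀ x y,
        res (inf_le_inf (hc x) (hc y)) (c.g x y) * res (inf_le_right : V x ⊓ V y ≤ V y) (h y) =
          res (inf_le_left : V x ⊓ V y ≤ V x) (h x) := by
  rw [← cl_one, cl_eq_cl]
  constructor
  · rintro ⟨V, hV, hc, _, h, H⟩
    refine ⟨V, hV, hc, h, fun x y => ?_⟩
    have := H x y
    simpa only [map_one, mul_one] using this
  · rintro ⟨V, hV, hc, h, H⟩
    refine ⟨V, hV, hc, fun _ => le_top, h, fun x y => ?_⟩
    simpa only [map_one, mul_one] using H x y

/-- On a scheme with at most one point every class is trivial. -/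
lemma eq_zero_of_subsingleton [Subsingleton X] (a : cechPic.Pic X) : a = 0 := by
  obtain ⟨c, rfl⟩ := cl_surjective a
  rw [cl_eq_zero_iff]
  refine ⟨c.U, c.mem, fun _ => le_rfl, fun _ => 1, fun x y => ?_⟩
  obtain rfl := Subsingleton.elim x y
  simp only [map_one, mul_one]
  exact c.g_self_on _

/-- `cechPic` is local: classes on the spectrum of a field vanish. -/
theorem cechPic_isLocal : cechPic.{u}.IsLocal := fun F _ a =>
  haveI : Subsingleton (Spec (CommRingCat.of F)) :=
    inferInstanceAs (Subsingleton (PrimeSpectrum F))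
  eq_zero_of_subsingleton a

end

end Fermat.Agent.S26.Pic
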