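import Mathlib.AlgebraicGeometry.Scheme

/-!
# Row S26, block PIC, part P1: the Picard group by Čech cocycles indexed by points

(sub-architect helper347; blueprint `coord/S26.md` §5, Mathlib only)

A *cocycle* on a scheme `X` is a family of opens `U x ∋ x` (one for every point) and units
`g x y ∈ Γ(X, U x ⊓ U y)ˣ` with `g x y * g y z = g x z` on `U x ⊓ U y ⊓ U z`.
Two cocycles are *equivalent* when they differ by a coboundary after shrinking the opens.
`PicGrp X` is the quotient (a commutative group), `PicGrp.map f` the pull-back.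
Since covers indexed by points are cofinal among all open covers, `PicGrp X` is the Čech
`H¹(X, 𝒪ˣ)`, i.e. the Picard group of `X`.
-/

set_option autoImplicit false

open AlgebraicGeometry CategoryTheory TopologicalSpace Opposite

universe u

namespace Fermat.Agent.S26.Pic

noncomputable section

variable {X Y Z : Scheme.{u}}

/-! ## Restriction and pull-back of units -/

/-- Pull-back of units along `f`, to an open contained in the preimage. -/
def pull (f : X ⟶ Y) {U : Y.Opens} {V : X.Opens} (e : V ≤ f ⁻¹ᵁ U) :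
    Γ(Y, U)ˣ →* Γ(X, V)ˣ :=
  Units.map (f.appLE U V e).hom

/-- Restriction of units. -/
def res {U V : X.Opens} (h : V ≤ U) : Γ(X, U)ˣ →* Γ(X, V)ˣ :=
  Units.map (X.presheaf.map (homOfLE h).op).hom

lemma res_res {U V W : X.Opens} (h : V ≤ U) (h' : W ≤ V) (a : Γ(X, U)ˣ) :
    res h' (res h a) = res (h'.trans h) a := by
  ext
  simp only [res, Units.coe_map, MonoidHom.coe_coe]
  rw [← CommRingCat.comp_apply, ← Functor.map_comp]
  rfl

lemma res_self {U : X.Opens} (h : U ≤ U) (a : Γ(X, U)ˣ) : res h a = a := by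
  ext
  simp only [res, Units.coe_map, MonoidHom.coe_coe]
  have : (homOfLE h).op = 𝟙 (op U) := rfl
  rw [this, X.presheaf.map_id]
  rfl

lemma pull_res (f : X ⟶ Y) {U U' : Y.Opens} {V : X.Opens} (h : U' ≤ U) (e : V ≤ f ⁻¹ᵁ U')
    (a : Γ(Y, U)ˣ) :
    pull f e (res h a) = pull f (e.trans (f.preimage_mono h)) a := by
  ext
  simp only [pull, res, Units.coe_map, MonoidHom.coe_coe]
  rw [← CommRingCat.comp_apply, Scheme.Hom.map_appLE]

lemma res_pull (f : X ⟶ Y) {U : Y.Opens} {V V' : X.Opens} (e : V ≤ f ⁻¹ᵁ U) (h : V' ≤ V)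
    (a : Γ(Y, U)ˣ) :
    res h (pull f e a) = pull f (h.trans e) a := by
  ext
  simp only [pull, res, Units.coe_map, MonoidHom.coe_coe]
  rw [← CommRingCat.comp_apply, Scheme.Hom.appLE_map]

lemma pull_pull (f : X ⟶ Y) (g : Y ⟶ Z) {U : Z.Opens} {V : Y.Opens} {W : X.Opens}
    (e₁ : V ≤ g ⁻¹ᵁ U) (e₂ : W ≤ f ⁻¹ᵁ V) (a : Γ(Z, U)ˣ) :
    pull f e₂ (pull g e₁ a) = pull (f ≫ g) (e₂.trans (f.preimage_mono e₁)) a := by
  ext
  simp only [pull, Units.coe_map, MonoidHom.coe_coe]
  rw [← CommRingCat.comp_apply, Scheme.Hom.appLE_comp_appLE]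

lemma pull_id {U V : X.Opens} (e : V ≤ (𝟙 X) ⁻¹ᵁ U) (a : Γ(X, U)ˣ) :
    pull (𝟙 X) e a = res (show V ≤ U from e) a := by
  ext
  simp only [pull, res, Units.coe_map, MonoidHom.coe_coe]
  simp only [Scheme.Hom.appLE, Scheme.Hom.id_app]
  rfl

lemma pull_congr {f f' : X ⟶ Y} (hf : f = f') {U : Y.Opens} {V : X.Opens} (e : V ≤ f ⁻¹ᵁ U)
    (a : Γ(Y, U)ˣ) : pull f e a = pull f' (hf ▸ e) a := by
  subst hf; rfl

/-! ## Cocycles -/

/-- A Čech 1-cocycle of `𝒪ˣ` for a cover indexed by the points of `X`. -/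
structure Cocycle (X : Scheme.{u}) : Type u where
  /-- the open attached to a point -/
  U : X → X.Opens
  mem : ∀ x, x ∈ U x
  /-- the transition unit -/
  g : ∀ x y, Γ(X, U x ⊓ U y)ˣ
  cocycle : ∀ x y z,
    res (inf_le_left : U x ⊓ U y ⊓ U z ≤ U x ⊓ U y) (g x y) *
      res (le_inf (inf_le_left.trans inf_le_right) inf_le_right :
        U x ⊓ U y ⊓ U z ≤ U y ⊓ U z) (g y z) =
      res (le_inf (inf_le_left.trans inf_le_left) inf_le_right :
        U x ⊓ U y ⊓ U z ≤ U x ⊓ U z) (g x z)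

namespace Cocycle

variable (c c' c'' : Cocycle X)

/-- The cocycle identity on any open contained in the triple intersection. -/
lemma cocycle_on {x y z : X} {W : X.Opens} (hxy : W ≤ c.U x ⊓ c.U y) (hyz : W ≤ c.U y ⊓ c.U z)
    (hxz : W ≤ c.U x ⊓ c.U z) :
    res hxy (c.g x y) * res hyz (c.g y z) = res hxz (c.g x z) := by
  have hW : W ≤ c.U x ⊓ c.U y ⊓ c.U z := le_inf hxy (hyz.trans inf_le_right)
  have := congrArg (res hW) (c.cocycle x y z)
  simpa only [map_mul, res_res] using this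

lemma g_self_on {x : X} {W : X.Opens} (h : W ≤ c.U x ⊓ c.U x) : res h (c.g x x) = 1 := by
  have := c.cocycle_on h h h
  exact mul_eq_left.mp this

lemma g_symm_on {x y : X} {W : X.Opens} (hxy : W ≤ c.U x ⊓ c.U y) (hyx : W ≤ c.U y ⊓ c.U x) :
    res hxy (c.g x y) * res hyx (c.g y x) = 1 := by
  have hxx : W ≤ c.U x ⊓ c.U x := le_inf (hxy.trans inf_le_left) (hxy.trans inf_le_left)
  rw [c.cocycle_on hxy hyx hxx, c.g_self_on]

/-- Two cocycles are equivalent if they differ by a coboundary on a common refinement. -/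
def Rel (c c' : Cocycle X) : Prop :=
  ∃ (V : X → X.Opens) (_ : ∀ x, x ∈ V x) (hc : ∀ x, V x ≤ c.U x) (hc' : ∀ x, V x ≤ c'.U x)
    (h : ∀ x, Γ(X, V x)ˣ), ∀ x y,
      res (inf_le_inf (hc x) (hc y)) (c.g x y) * res (inf_le_right : V x ⊓ V y ≤ V y) (h y) =
        res (inf_le_left : V x ⊓ V y ≤ V x) (h x) * res (inf_le_inf (hc' x) (hc' y)) (c'.g x y)

/-- Criterion: equal after restriction to a common refinement. -/
lemma rel_of_eq_on (V : X → X.Opens) (hV : ∀ x, x ∈ V x) (hc : ∀ x, V x ≤ c.U x)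
    (hc' : ∀ x, V x ≤ c'.U x)
    (h : ∀ x y, res (inf_le_inf (hc x) (hc y)) (c.g x y) =
      res (inf_le_inf (hc' x) (hc' y)) (c'.g x y)) : Rel c c' :=
  ⟨V, hV, hc, hc', fun _ => 1, fun x y => by simp only [map_one, mul_one, one_mul, h x y]⟩

lemma Rel.refl : Rel c c :=
  rel_of_eq_on c c c.U c.mem (fun _ => le_rfl) (fun _ => le_rfl) fun _ _ => rfl

variable {c c' c''}

lemma Rel.symm (h : Rel c c') : Rel c' c := by
  obtain ⟨V, hV, hc, hc', h, H⟩ := h
  refine ⟨V, hV, hc', hc, fun x => (h x)⁻¹, fun x y => ?_⟩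
  have := H x y
  simp only [map_inv]
  rw [mul_inv_eq_iff_eq_mul, mul_assoc, this, ← mul_assoc, inv_mul_cancel, one_mul]

lemma Rel.trans (h₁ : Rel c c') (h₂ : Rel c' c'') : Rel c c'' := by
  obtain ⟨V, hV, hc, hc', h, H⟩ := h₁
  obtain ⟨V', hV', hd', hd'', h', H'⟩ := h₂
  refine ⟨fun x => V x ⊓ V' x, fun x => ⟨hV x, hV' x⟩, fun x => inf_le_left.trans (hc x),
    fun x => inf_le_right.trans (hd'' x),
    fun x => res inf_le_left (h x) * res inf_le_right (h' x), fun x y => ?_⟩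
  have e₁ := congrArg (res (inf_le_inf inf_le_left inf_le_left :
    (V x ⊓ V' x) ⊓ (V y ⊓ V' y) ≤ V x ⊓ V y)) (H x y)
  have e₂ := congrArg (res (inf_le_inf inf_le_right inf_le_right :
    (V x ⊓ V' x) ⊓ (V y ⊓ V' y) ≤ V' x ⊓ V' y)) (H' x y)
  simp only [map_mul, res_res] at e₁ e₂ ⊢
  rw [← mul_assoc, e₁, mul_assoc, e₂, mul_assoc]

end Cocycle

/-- The setoid of cohomologous cocycles. -/
instance cocycleSetoid (X : Scheme.{u}) : Setoid (Cocycle X) where
  r := Cocycle.Rel
  iseqv := ⟨Cocycle.Rel.refl, Cocycle.Rel.symm, Cocycle.Rel.trans⟩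

/-- Preimages commute with intersections (as an inequality, to be used in `pull`). -/
lemma inf_preimage_le (f : X ⟶ Y) (U U' : Y.Opens) : f ⁻¹ᵁ U ⊓ f ⁻¹ᵁ U' ≤ f ⁻¹ᵁ (U ⊓ U') :=
  le_of_eq rfl

namespace Cocycle

/-! ## Operations on cocycles -/

/-- The trivial cocycle. -/
@[reducible] def one (X : Scheme.{u}) : Cocycle X where
  U _ := ⊤
  mem _ := trivial
  g _ _ := 1
  cocycle _ _ _ := by simp only [map_one, mul_one]

/-- The product of two cocycles. -/
@[reducible] def mul (c c' : Cocycle X) : Cocycle X where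
  U x := c.U x ⊓ c'.U x
  mem x := ⟨c.mem x, c'.mem x⟩
  g x y := res (inf_le_inf inf_le_left inf_le_left) (c.g x y) *
    res (inf_le_inf inf_le_right inf_le_right) (c'.g x y)
  cocycle x y z := by
    simp only [map_mul, res_res]
    rw [mul_mul_mul_comm, c.cocycle_on, c'.cocycle_on]

/-- The inverse of a cocycle. -/
@[reducible] def inv (c : Cocycle X) : Cocycle X where
  U := c.U
  mem := c.mem
  g x y := (c.g x y)⁻¹
  cocycle x y z := by
    simp only [map_inv]
    rw [← mul_inv, c.cocycle]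

/-- The pull-back of a cocycle. -/
@[reducible] def pullback (f : X ⟶ Y) (c : Cocycle Y) : Cocycle X where
  U x := f ⁻¹ᵁ c.U (f x)
  mem x := c.mem (f x)
  g x y := pull f (inf_preimage_le f _ _) (c.g (f x) (f y))
  cocycle x y z := by
    have := congrArg (pull f ((inf_preimage_le f _ _).trans' (inf_le_inf_right _
      (inf_preimage_le f _ _)))) (c.cocycle (f x) (f y) (f z))
    simp only [map_mul, pull_res] at this
    rw [res_pull, res_pull, res_pull]
    exact this

variable (c c' : Cocycle X)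

lemma res_one_g {x y : X} {W : X.Opens} (h : W ≤ (one X).U x ⊓ (one X).U y) :
    res h ((one X).g x y) = 1 :=
  map_one _

lemma res_mul_g {x y : X} {W : X.Opens} (h : W ≤ (c.mul c').U x ⊓ (c.mul c').U y) :
    res h ((c.mul c').g x y) =
      res (h.trans (inf_le_inf inf_le_left inf_le_left)) (c.g x y) *
        res (h.trans (inf_le_inf inf_le_right inf_le_right)) (c'.g x y) := by
  rw [map_mul, res_res, res_res]

lemma res_inv_g {x y : X} {W : X.Opens} (h : W ≤ c.inv.U x ⊓ c.inv.U y) :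
    res h (c.inv.g x y) = (res (U := c.U x ⊓ c.U y) h (c.g x y))⁻¹ :=
  map_inv _ _

lemma res_pullback_g (f : X ⟶ Y) (d : Cocycle Y) {x y : X} {W : X.Opens}
    (h : W ≤ (d.pullback f).U x ⊓ (d.pullback f).U y) :
    res h ((d.pullback f).g x y) =
      pull f (h.trans (inf_preimage_le f _ _)) (d.g (f x) (f y)) := by
  rw [res_pull]

variable {c c'}

lemma mul_rel {a a' b b' : Cocycle X} (h₁ : Rel a a') (h₂ : Rel b b') :
    Rel (a.mul b) (a'.mul b') := by
  obtain ⟨V, hV, hc, hc', h, H⟩ := h₁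
  obtain ⟨V', hV', hd, hd', h', H'⟩ := h₂
  refine ⟨fun x => V x ⊓ V' x, fun x => ⟨hV x, hV' x⟩, fun x => inf_le_inf (hc x) (hd x),
    fun x => inf_le_inf (hc' x) (hd' x),
    fun x => res inf_le_left (h x) * res inf_le_right (h' x), fun x y => ?_⟩
  have e₁ := congrArg (res (inf_le_inf inf_le_left inf_le_left :
    (V x ⊓ V' x) ⊓ (V y ⊓ V' y) ≤ V x ⊓ V y)) (H x y)
  have e₂ := congrArg (res (inf_le_inf inf_le_right inf_le_right :
    (V x ⊓ V' x) ⊓ (V y ⊓ V' y) ≤ V' x ⊓ V' y)) (H' x y)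
  simp only [map_mul, res_res] at e₁ e₂
  rw [res_mul_g, res_mul_g]
  simp only [map_mul, res_res]
  rw [mul_mul_mul_comm, e₁, e₂, mul_mul_mul_comm]

lemma inv_rel {a a' : Cocycle X} (h₁ : Rel a a') : Rel a.inv a'.inv := by
  obtain ⟨V, hV, hc, hc', h, H⟩ := h₁
  refine ⟨V, hV, hc, hc', fun x => (h x)⁻¹, fun x y => ?_⟩
  rw [res_inv_g, res_inv_g]
  simp only [map_inv]
  rw [← mul_inv, ← mul_inv, H x y]

lemma pullback_rel (f : X ⟶ Y) {a a' : Cocycle Y} (h₁ : Rel a a') :
    Rel (a.pullback f) (a'.pullback f) := by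
  obtain ⟨V, hV, hc, hc', h, H⟩ := h₁
  refine ⟨fun x => f ⁻¹ᵁ V (f x), fun x => hV (f x), fun x => f.preimage_mono (hc (f x)),
    fun x => f.preimage_mono (hc' (f x)), fun x => pull f le_rfl (h (f x)), fun x y => ?_⟩
  have := congrArg (pull f (inf_preimage_le f (V (f x)) (V (f y)))) (H (f x) (f y))
  simp only [map_mul, pull_res] at this
  rw [res_pullback_g, res_pullback_g]
  simp only [res_pull]
  exact this

/-! ### The group axioms up to equivalence -/

lemma mul_assoc_rel (a b d : Cocycle X) : Rel ((a.mul b).mul d) (a.mul (b.mul d)) := by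
  refine rel_of_eq_on _ _ (fun x => a.U x ⊓ b.U x ⊓ d.U x) (fun x => ⟨⟨a.mem x, b.mem x⟩, d.mem x⟩)
    (fun x => le_rfl) (fun x => le_of_eq (inf_assoc _ _ _)) fun x y => ?_
  simp only [map_mul, res_res, mul_assoc]

lemma mul_comm_rel (a b : Cocycle X) : Rel (a.mul b) (b.mul a) := by
  refine rel_of_eq_on _ _ (fun x => a.U x ⊓ b.U x) (fun x => ⟨a.mem x, b.mem x⟩)
    (fun x => le_rfl) (fun x => le_of_eq (inf_comm _ _)) fun x y => ?_
  simp only [map_mul, res_res]
  exact mul_comm _ _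

lemma one_mul_rel (a : Cocycle X) : Rel ((one X).mul a) a := by
  refine rel_of_eq_on _ _ a.U a.mem (fun x => le_inf le_top le_rfl) (fun x => le_rfl)
    fun x y => ?_
  simp only [map_one, res_res, one_mul]

lemma inv_mul_rel (a : Cocycle X) : Rel (a.inv.mul a) (one X) := by
  refine rel_of_eq_on _ _ a.U a.mem (fun x => le_inf le_rfl le_rfl) (fun x => le_top)
    fun x y => ?_
  simp only [map_one, map_inv, inv_mul_cancel]

/-! ### Functoriality up to equivalence -/

lemma pullback_one_rel (f : X ⟶ Y) : Rel ((one Y).pullback f) (one X) := by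
  refine rel_of_eq_on _ _ (fun _ => ⊤) (fun _ => trivial) (fun x => le_rfl) (fun x => le_rfl)
    fun x y => ?_
  simp only [map_one]

lemma pullback_mul_rel (f : X ⟶ Y) (a b : Cocycle Y) :
    Rel ((a.mul b).pullback f) ((a.pullback f).mul (b.pullback f)) := by
  refine rel_of_eq_on _ _ (fun x => f ⁻¹ᵁ (a.U (f x) ⊓ b.U (f x)))
    (fun x => ⟨a.mem (f x), b.mem (f x)⟩) (fun x => le_rfl) (fun x => le_of_eq rfl)
    fun x y => ?_
  simp only [map_mul, res_pull, pull_res]

lemma pullback_id_rel (a : Cocycle X) : Rel (a.pullback (𝟙 X)) a := by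
  refine rel_of_eq_on _ _ a.U a.mem (fun x => le_rfl) (fun x => le_rfl) fun x y => ?_
  rw [res_pull, pull_id]
  rfl

lemma pullback_comp_rel (f : X ⟶ Y) (g : Y ⟶ Z) (a : Cocycle Z) :
    Rel (a.pullback (f ≫ g)) ((a.pullback g).pullback f) := by
  refine rel_of_eq_on _ _ (fun x => (f ≫ g) ⁻¹ᵁ a.U ((f ≫ g) x)) (fun x => a.mem _)
    (fun x => le_rfl) (fun x => le_of_eq rfl) fun x y => ?_
  simp only [res_pull, pull_pull]
  rfl

end Cocycle

/-! ## The Picard group -/

/-- The Picard group of a scheme, as Čech cohomology classes of cocycles indexed by points. -/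
def PicGrp (X : Scheme.{u}) : Type u := Quotient (cocycleSetoid X)

namespace PicGrp

/-- The class of a cocycle. -/
def mk (c : Cocycle X) : PicGrp X := Quotient.mk _ c

lemma mk_eq_mk {c c' : Cocycle X} : mk c = mk c' ↔ Cocycle.Rel c c' :=
  Quotient.eq (r := cocycleSetoid X)

lemma mk_surjective : Function.Surjective (mk : Cocycle X → PicGrp X) :=
  Quotient.mk_surjective

instance instCommGroup (X : Scheme.{u}) : CommGroup (PicGrp X) where
  mul := Quotient.map₂ Cocycle.mul fun _ _ h₁ _ _ h₂ => Cocycle.mul_rel h₁ h₂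
  one := mk (Cocycle.one X)
  inv := Quotient.map Cocycle.inv fun _ _ h => Cocycle.inv_rel h
  mul_assoc := by
    rintro ⟨a⟩ ⟨b⟩ ⟨d⟩
    exact Quotient.sound (Cocycle.mul_assoc_rel a b d)
  one_mul := by
    rintro ⟨a⟩
    exact Quotient.sound (Cocycle.one_mul_rel a)
  mul_one := by
    rintro ⟨a⟩
    exact Quotient.sound ((Cocycle.mul_comm_rel a (Cocycle.one X)).trans (Cocycle.one_mul_rel a))
  inv_mul_cancel := by
    rintro ⟨a⟩
    exact Quotient.sound (Cocycle.inv_mul_rel a)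
  mul_comm := by
    rintro ⟨a⟩ ⟨b⟩
    exact Quotient.sound (Cocycle.mul_comm_rel a b)

lemma mk_mul (c c' : Cocycle X) : mk (c.mul c') = mk c * mk c' := rfl

lemma mk_one : mk (Cocycle.one X) = 1 := rfl

lemma mk_inv (c : Cocycle X) : mk c.inv = (mk c)⁻¹ := rfl

/-- Pull-back of Picard classes. -/
def map (f : X ⟶ Y) : PicGrp Y →* PicGrp X where
  toFun := Quotient.map (Cocycle.pullback f) fun _ _ h => Cocycle.pullback_rel f h
  map_one' := Quotient.sound (Cocycle.pullback_one_rel f)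
  map_mul' := by
    rintro ⟨a⟩ ⟨b⟩
    exact Quotient.sound (Cocycle.pullback_mul_rel f a b)

lemma map_mk (f : X ⟶ Y) (c : Cocycle Y) : map f (mk c) = mk (c.pullback f) := rfl

lemma map_id (a : PicGrp X) : map (𝟙 X) a = a := by
  obtain ⟨a, rfl⟩ := mk_surjective a
  exact Quotient.sound (Cocycle.pullback_id_rel a)

lemma map_comp (f : X ⟶ Y) (g : Y ⟶ Z) (a : PicGrp Z) :
    map (f ≫ g) a = map f (map g a) := by
  obtain ⟨a, rfl⟩ := mk_surjective a
  exact Quotient.sound (Cocycle.pullback_comp_rel f g a)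

end PicGrp

end

end Fermat.Agent.S26.Pic
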