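import Fermat.Agent.S26.Pic.P4Final
import Fermat.Agent.S26.Pic.H582.CDiv
import Fermat.Agent.S26.H326.ModDict
import Fermat.Agent.S26.H70.CubeFinal

/-!
# Row S26, blocks PIC + CUBE: assembly of `Stmt.PicCube` (sub-architect helper347)

`picCube_of : S25Statement → (∀ K', CurvesGenerate K') → GenericTrivial cechPic K → PicCube K`.
Closed inputs (all on main): `cechPic_isLocal` (P1), `H582.cdivDict` (P3), `localOnBase` (P4),
`H326.curveCube_cechPic` (DICT26 + C1), `H70.cube_of_model` (C5).
Open inputs: row S25 (existence of Jacobians), C4 (`Stmt.CurvesGenerate`), P5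
(`Stmt.GenericTrivial cechPic`).
-/

set_option autoImplicit false

open AlgebraicGeometry CategoryTheory

universe u

namespace Fermat.Agent.S26.Pic

/-- The theorem of the cube for the Čech Picard theory, from S25, C4 and P5. -/
theorem cube_cechPic (hS25 : H687.S25Statement.{u})
    (hGen : ∀ (K' : Type u) [Field K'] [IsAlgClosed K'], Stmt.CurvesGenerate K')
    (K : Type u) [Field K] [IsAlgClosed K] (hP5 : Stmt.GenericTrivial cechPic.{u} K) :
    Stmt.Cube cechPic.{u} K :=
  H70.cube_of_model cechPic_isLocal (fun K' _ _ => H326.curveCube_cechPic hS25 K') hGen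
    (localOnBase K) hP5

/-- Output of blocks PIC + CUBE, from S25, C4 and P5. -/
theorem picCube_of (hS25 : H687.S25Statement.{u})
    (hGen : ∀ (K' : Type u) [Field K'] [IsAlgClosed K'], Stmt.CurvesGenerate K')
    (K : Type u) [Field K] [IsAlgClosed K] (hP5 : Stmt.GenericTrivial cechPic.{u} K) :
    Stmt.PicCube K :=
  ⟨cechPic, cechPic_isLocal, H582.cdivDict, cube_cechPic hS25 hGen K hP5⟩

end Fermat.Agent.S26.Pic
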