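import Fermat.Agent.S26.Pic.Theory

/-!
# Row S26, block PIC: API of the Čech model (helper347)

* `cl_eq_zero_of_sec` (P2): a cocycle with a nowhere vanishing section has trivial class.
* `CoverCocycle` : cocycles for an arbitrary indexed open cover, `CoverCocycle.cl`, independence
  of the choice of indices, comparison of two cocycles on the same cover.
* `map_cl_eq_zero_iff` : triviality of the restriction of a class to an open subscheme
  (`j : V ⟶ X` an open immersion), expressed by opens and units of `X`.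
-/

set_option autoImplicit false

open AlgebraicGeometry CategoryTheory TopologicalSpace Opposite

universe u

namespace Fermat.Agent.S26.Pic

noncomputable section

variable {X Y : Scheme.{u}}

/-! ## Restriction of functions -/

/-- Restriction of functions, as a ring homomorphism. -/
def resR {U V : X.Opens} (h : V ≤ U) : Γ(X, U) →+* Γ(X, V) :=
  (X.presheaf.map (homOfLE h).op).hom

lemma coe_res {U V : X.Opens} (h : V ≤ U) (a : Γ(X, U)ˣ) :
    ((res h a : Γ(X, V)ˣ) : Γ(X, V)) = resR h (a : Γ(X, U)) := rfl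

lemma resR_resR {U V W : X.Opens} (h : V ≤ U) (h' : W ≤ V) (a : Γ(X, U)) :
    resR h' (resR h a) = resR (h'.trans h) a := by
  simp only [resR]
  rw [← CommRingCat.comp_apply, ← Functor.map_comp]
  rfl

/-! ## P2: sections -/

/-- A section of the invertible sheaf attached to a cocycle: functions `s x` on `U x` with
`s x = g x y * s y` on `U x ⊓ U y`. -/
structure Cocycle.Sec (c : Cocycle X) where
  /-- the local function -/
  s : ∀ x, Γ(X, c.U x)
  compat : ∀ x y, resR (inf_le_left : c.U x ⊓ c.U y ≤ c.U x) (s x) =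
    (c.g x y : Γ(X, c.U x ⊓ c.U y)) * resR (inf_le_right : c.U x ⊓ c.U y ≤ c.U y) (s y)

/-- **P2.** A cocycle with a nowhere vanishing section has trivial class. -/
theorem cl_eq_zero_of_sec (c : Cocycle X) (σ : c.Sec) (hσ : ∀ x, x ∈ X.basicOpen (σ.s x)) :
    cl c = 0 := by
  rw [cl_eq_zero_iff]
  have hu : ∀ x, IsUnit (resR (X.basicOpen_le (σ.s x)) (σ.s x)) := fun x =>
    X.toRingedSpace.isUnit_res_basicOpen (σ.s x)
  refine ⟨fun x => X.basicOpen (σ.s x), hσ, fun x => X.basicOpen_le _,
    fun x => (hu x).unit, fun x y => ?_⟩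
  ext
  simp only [Units.val_mul, coe_res, IsUnit.unit_spec]
  rw [resR_resR, resR_resR]
  have := congrArg (resR (inf_le_inf (X.basicOpen_le (σ.s x)) (X.basicOpen_le (σ.s y))))
    (σ.compat x y)
  rw [map_mul, resR_resR, resR_resR] at this
  exact this.symm

/-! ## Cocycles for arbitrary covers -/

/-- A Čech 1-cocycle of `𝒪ˣ` for an indexed family of opens. -/
structure CoverCocycle (X : Scheme.{u}) (ι : Type*) where
  /-- the opens -/
  W : ι → X.Opens
  /-- the transition units -/
  g : ∀ i j, Γ(X, W i ⊓ W j)ˣ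
  cocycle : ∀ i j k,
    res (inf_le_left : W i ⊓ W j ⊓ W k ≤ W i ⊓ W j) (g i j) *
      res (le_inf (inf_le_left.trans inf_le_right) inf_le_right :
        W i ⊓ W j ⊓ W k ≤ W j ⊓ W k) (g j k) =
      res (le_inf (inf_le_left.trans inf_le_left) inf_le_right :
        W i ⊓ W j ⊓ W k ≤ W i ⊓ W k) (g i k)

namespace CoverCocycle

variable {ι : Type*} (C : CoverCocycle X ι)

lemma cocycle_on {i j k : ι} {W' : X.Opens} (hij : W' ≤ C.W i ⊓ C.W j)
    (hjk : W' ≤ C.W j ⊓ C.W k) (hik : W' ≤ C.W i ⊓ C.W k) :
    res hij (C.g i j) * res hjk (C.g j k) = res hik (C.g i k) := by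
  have hW : W' ≤ C.W i ⊓ C.W j ⊓ C.W k := le_inf hij (hjk.trans inf_le_right)
  have := congrArg (res hW) (C.cocycle i j k)
  simpa only [map_mul, res_res] using this

/-- The cocycle indexed by points obtained from a choice of indices. -/
@[reducible] def toCocycle (idx : X → ι) (hidx : ∀ x, x ∈ C.W (idx x)) : Cocycle X where
  U x := C.W (idx x)
  mem := hidx
  g x y := C.g (idx x) (idx y)
  cocycle x y z := C.cocycle (idx x) (idx y) (idx z)

/-- The class does not depend on the choice of indices. -/
lemma toCocycle_rel (idx idx' : X → ι) (hidx : ∀ x, x ∈ C.W (idx x))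
    (hidx' : ∀ x, x ∈ C.W (idx' x)) :
    Cocycle.Rel (C.toCocycle idx hidx) (C.toCocycle idx' hidx') := by
  refine ⟨fun x => C.W (idx x) ⊓ C.W (idx' x), fun x => ⟨hidx x, hidx' x⟩,
    fun x => inf_le_left, fun x => inf_le_right, fun x => C.g (idx x) (idx' x), fun x y => ?_⟩
  rw [C.cocycle_on (k := idx' y) _ _ (le_inf (inf_le_left.trans inf_le_left)
      (inf_le_right.trans inf_le_right)),
    C.cocycle_on (j := idx' x) _ _ (le_inf (inf_le_left.trans inf_le_left)
      (inf_le_right.trans inf_le_right))]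

/-- The class of a cocycle on an open cover. -/
def cl (hcov : ∀ x, ∃ i, x ∈ C.W i) : cechPic.Pic X :=
  Pic.cl (C.toCocycle (fun x => (hcov x).choose) fun x => (hcov x).choose_spec)

lemma cl_eq (hcov : ∀ x, ∃ i, x ∈ C.W i) (idx : X → ι) (hidx : ∀ x, x ∈ C.W (idx x)) :
    C.cl hcov = Pic.cl (C.toCocycle idx hidx) :=
  cl_eq_cl.mpr (C.toCocycle_rel _ _ _ _)

/-- Two cocycles, the first on a cover refining index-wise the cover of the second, which differ
by a coboundary, have the same class. -/
lemma cl_eq_cl_of_coboundary (C' : CoverCocycle X ι) (hW : ∀ i, C.W i ≤ C'.W i)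
    (hcov : ∀ x, ∃ i, x ∈ C.W i) (hcov' : ∀ x, ∃ i, x ∈ C'.W i)
    (h : ∀ i, Γ(X, C.W i)ˣ)
    (H : ∀ i j, C.g i j * res (inf_le_right : C.W i ⊓ C.W j ≤ C.W j) (h j) =
      res (inf_le_left : C.W i ⊓ C.W j ≤ C.W i) (h i) *
        res (inf_le_inf (hW i) (hW j)) (C'.g i j)) :
    C.cl hcov = C'.cl hcov' := by
  have hidx' : ∀ x, x ∈ C'.W ((hcov x).choose) := fun x => hW _ (hcov x).choose_spec
  rw [C'.cl_eq hcov' (fun x => (hcov x).choose) hidx', cl, cl_eq_cl]
  refine ⟨fun x => C.W (hcov x).choose, fun x => (hcov x).choose_spec, fun x => le_rfl,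
    fun x => hW _, fun x => h _, fun x y => ?_⟩
  rw [res_self]
  exact H _ _

end CoverCocycle

/-! ## Restriction to an open subscheme -/

section OpenImmersion

variable {V : Scheme.{u}} (j : V ⟶ X) [IsOpenImmersion j]

lemma pull_image_injective (A : V.Opens) (e : A ≤ j ⁻¹ᵁ (j ''ᵁ A)) :
    Function.Injective (pull j e) := by
  have : pull j e = Units.map (j.appIso A).hom.hom := by
    rw [Scheme.Hom.appIso_hom']; rfl
  rw [this]
  intro a b hab
  apply Units.ext
  have h2 := congrArg Units.val hab
  simp only [Units.coe_map, MonoidHom.coe_coe] at h2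
  exact (ConcreteCategory.bijective_of_isIso (j.appIso A).hom).1 h2

lemma pull_image_surjective (A : V.Opens) (e : A ≤ j ⁻¹ᵁ (j ''ᵁ A)) :
    Function.Surjective (pull j e) := by
  have : pull j e = Units.map (j.appIso A).hom.hom := by
    rw [Scheme.Hom.appIso_hom']; rfl
  rw [this]
  intro b
  refine ⟨Units.map (j.appIso A).inv.hom b, ?_⟩
  apply Units.ext
  simp only [Units.coe_map, MonoidHom.coe_coe]
  rw [← CommRingCat.comp_apply, Iso.inv_hom_id]
  rfl

/-- Pull-back of units along an open immersion is injective on opens inside the range. -/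
lemma pull_injective_of_le_opensRange {B : X.Opens} (hB : B ≤ j.opensRange) {A : V.Opens}
    (e : A ≤ j ⁻¹ᵁ B) (e' : j ⁻¹ᵁ B ≤ A) : Function.Injective (pull j e) := by
  have hBA : j ''ᵁ A = B := by
    rw [le_antisymm e e', j.image_preimage_eq_opensRange_inf, inf_eq_right.mpr hB]
  intro a b hab
  have h1 : ∀ a : Γ(X, B)ˣ, pull j e a =
      pull j (j.preimage_image_eq A).ge (res (le_of_eq hBA) a) := fun a => by
    rw [pull_res]
  rw [h1, h1] at hab
  have h2 := pull_image_injective j A _ hab
  have h3 := congrArg (res (le_of_eq hBA.symm)) h2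
  simpa only [res_res, res_self] using h3

/-- The restriction of the class of `c` to an open subscheme `j : V ⟶ X` is trivial iff `c` is a
coboundary over the range of `j`, after shrinking. -/
theorem map_cl_eq_zero_iff (c : Cocycle X) :
    cechPic.map j (cl c) = 0 ↔
      ∃ (V' : V → X.Opens) (_ : ∀ v, j v ∈ V' v) (hle : ∀ v, V' v ≤ c.U (j v))
        (_ : ∀ v, V' v ≤ j.opensRange) (h : ∀ v, Γ(X, V' v)ˣ), ∀ v w,
          res (inf_le_inf (hle v) (hle w)) (c.g (j v) (j w)) *
            res (inf_le_right : V' v ⊓ V' w ≤ V' w) (h w) =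
          res (inf_le_left : V' v ⊓ V' w ≤ V' v) (h v) := by
  rw [map_cl, cl_eq_zero_iff]
  constructor
  · rintro ⟨V'', hmem, hle, h'', H⟩
    have hle' : ∀ v, j ''ᵁ V'' v ≤ c.U (j v) := fun v =>
      (j.image_mono (hle v)).trans (j.image_preimage_eq_opensRange_inf _ ▸ inf_le_right)
    choose h hh using fun v => pull_image_surjective j (V'' v) (j.preimage_image_eq _).ge (h'' v)
    refine ⟨fun v => j ''ᵁ V'' v, fun v => ⟨v, hmem v, rfl⟩, hle',
      fun v => j.image_le_opensRange _, h, fun v w => ?_⟩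
    have e : V'' v ⊓ V'' w ≤ j ⁻¹ᵁ (j ''ᵁ V'' v ⊓ j ''ᵁ V'' w) :=
      le_inf (inf_le_left.trans (j.preimage_image_eq _).ge)
        (inf_le_right.trans (j.preimage_image_eq _).ge)
    have e' : j ⁻¹ᵁ (j ''ᵁ V'' v ⊓ j ''ᵁ V'' w) ≤ V'' v ⊓ V'' w :=
      le_inf ((j.preimage_mono inf_le_left).trans (j.preimage_image_eq _).le)
        ((j.preimage_mono inf_le_right).trans (j.preimage_image_eq _).le)
    apply pull_injective_of_le_opensRange j (inf_le_left.trans (j.image_le_opensRange _)) e e'
    have := H v w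
    simp only [res_pull] at this
    simp only [map_mul, pull_res]
    rw [← hh v, ← hh w] at this
    simp only [res_pull] at this
    exact this
  · rintro ⟨V', hmem, hle, -, h, H⟩
    refine ⟨fun v => j ⁻¹ᵁ V' v, hmem, fun v => j.preimage_mono (hle v),
      fun v => pull j le_rfl (h v), fun v w => ?_⟩
    have := congrArg (pull j (inf_preimage_le j (V' v) (V' w))) (H v w)
    simp only [map_mul, pull_res] at this
    simp only [res_pull]
    exact this

end OpenImmersion

end

end Fermat.Agent.S26.Pic
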