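import Fermat.Agent.S26.Pic.Glue

/-!
# Row S26, block PIC: descent of a locally trivial cocycle (formal half of P4; helper347)

`exists_descent`: let `π : P ⟶ X` be a morphism such that units on `π⁻¹ U` are exactly the units
on `U` (for every open `U ⊆ X`).  A cocycle `c` on `P` which is a coboundary (after shrinking) over
`π⁻¹ (U p)`, for a family of opens `U p ∋ p` of `X`, has the class of the pull-back of a cocycle
on `X`.
-/

set_option autoImplicit false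

open AlgebraicGeometry CategoryTheory TopologicalSpace Opposite

universe u

namespace Fermat.Agent.S26.Pic

noncomputable section

variable {P X : Scheme.{u}}

/-- Transport of the indices of a transition unit along equalities of points. -/
lemma Cocycle.res_g_congr (c : Cocycle P) {a a' b b' : P} (ha : a = a') (hb : b = b')
    {W : P.Opens} (h1 : W ≤ c.U a ⊓ c.U b) (h2 : W ≤ c.U a' ⊓ c.U b') :
    res h1 (c.g a b) = res h2 (c.g a' b') := by
  subst ha hb; rfl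

section CommGroupAux

variable {G : Type*} [CommGroup G]

lemma descent_aux₁ {gii' gi'k' gik gkk' hpi hpk hqi' hqk' : G}
    (e1 : gik * hpk = hpi) (e2 : gi'k' * hqk' = hqi') (e3 : gii' * gi'k' = gik * gkk') :
    gii' * hqi' * hpi⁻¹ = gkk' * hqk' * hpk⁻¹ := by
  subst e1 e2
  rw [mul_inv_eq_iff_eq_mul]
  calc gii' * (gi'k' * hqk') = gii' * gi'k' * hqk' := (mul_assoc _ _ _).symm
    _ = gik * gkk' * hqk' := by rw [e3]
    _ = gkk' * hqk' * hpk⁻¹ * (gik * hpk) := by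
      apply (Additive.ofMul (α := G)).injective
      simp only [ofMul_mul, ofMul_inv]
      abel

lemma descent_aux₂ {a b c d e f : G} (h : a * b = c) :
    (a * d * e⁻¹) * (b * f * d⁻¹) = c * f * e⁻¹ := by
  subst h
  apply (Additive.ofMul (α := G)).injective
  simp only [ofMul_mul, ofMul_inv]
  abel

lemma descent_aux₃ (g h h' : G) : g * h' = h * (g * h' * h⁻¹) := by
  apply (Additive.ofMul (α := G)).injective
  simp only [ofMul_mul, ofMul_inv]
  abel

end CommGroupAux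

/-- **Descent of a locally trivial cocycle.** -/
theorem exists_descent (π : P ⟶ X)
    (hinj : ∀ U : X.Opens, Function.Injective (pull π (le_refl (π ⁻¹ᵁ U))))
    (hsurj : ∀ U : X.Opens, Function.Surjective (pull π (le_refl (π ⁻¹ᵁ U))))
    (c : Cocycle P) (U : X → X.Opens) (hU : ∀ p, p ∈ U p)
    (I : X → Type u) (ζ : ∀ p, I p → P) (hζ : ∀ p z, π z ∈ U p → ∃ i, ζ p i = z)
    (V : ∀ p, I p → P.Opens) (hV : ∀ p i, ζ p i ∈ V p i)
    (hVc : ∀ p i, V p i ≤ c.U (ζ p i)) (hVU : ∀ p i, V p i ≤ π ⁻¹ᵁ U p)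
    (h : ∀ p i, Γ(P, V p i)ˣ)
    (H : ∀ p i i', res (inf_le_inf (hVc p i) (hVc p i')) (c.g (ζ p i) (ζ p i')) *
        res (inf_le_right : V p i ⊓ V p i' ≤ V p i') (h p i') =
      res (inf_le_left : V p i ⊓ V p i' ≤ V p i) (h p i)) :
    ∃ d : Cocycle X, cl c = cechPic.map π (cl d) := by
  -- the local units on `V p i ⊓ V q i'`
  have hOc : ∀ p q (a : I p × I q),
      V p a.1 ⊓ V q a.2 ≤ c.U (ζ p a.1) ⊓ c.U (ζ q a.2) := fun p q a =>
    inf_le_inf (hVc p a.1) (hVc q a.2)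
  have hOB : ∀ p q (a : I p × I q), V p a.1 ⊓ V q a.2 ≤ π ⁻¹ᵁ (U p ⊓ U q) := fun p q a =>
    (inf_le_inf (hVU p a.1) (hVU q a.2)).trans (inf_preimage_le π _ _)
  have hOcov : ∀ p q, ∀ z ∈ π ⁻¹ᵁ (U p ⊓ U q), ∃ a : I p × I q, z ∈ V p a.1 ⊓ V q a.2 := by
    intro p q z hz
    obtain ⟨i, hi⟩ := hζ p z hz.1
    obtain ⟨i', hi'⟩ := hζ q z hz.2
    exact ⟨(i, i'), hi ▸ hV p i, hi' ▸ hV q i'⟩
  have hs : ∀ p q (a b : I p × I q),
      res (inf_le_left : (V p a.1 ⊓ V q a.2) ⊓ (V p b.1 ⊓ V q b.2) ≤ V p a.1 ⊓ V q a.2)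
        (res (hOc p q a) (c.g (ζ p a.1) (ζ q a.2)) *
          res (inf_le_right : V p a.1 ⊓ V q a.2 ≤ V q a.2) (h q a.2) *
          (res (inf_le_left : V p a.1 ⊓ V q a.2 ≤ V p a.1) (h p a.1))⁻¹) =
      res (inf_le_right : (V p a.1 ⊓ V q a.2) ⊓ (V p b.1 ⊓ V q b.2) ≤ V p b.1 ⊓ V q b.2)
        (res (hOc p q b) (c.g (ζ p b.1) (ζ q b.2)) *
          res (inf_le_right : V p b.1 ⊓ V q b.2 ≤ V q b.2) (h q b.2) *
          (res (inf_le_left : V p b.1 ⊓ V q b.2 ≤ V p b.1) (h p b.1))⁻¹) := by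
    intro p q a b
    simp only [map_mul, map_inv, res_res]
    have e1 := congrArg (res (inf_le_inf inf_le_left inf_le_left :
      (V p a.1 ⊓ V q a.2) ⊓ (V p b.1 ⊓ V q b.2) ≤ V p a.1 ⊓ V p b.1)) (H p a.1 b.1)
    have e2 := congrArg (res (inf_le_inf inf_le_right inf_le_right :
      (V p a.1 ⊓ V q a.2) ⊓ (V p b.1 ⊓ V q b.2) ≤ V q a.2 ⊓ V q b.2)) (H q a.2 b.2)
    simp only [map_mul, res_res] at e1 e2
    refine descent_aux₁ e1 e2 ?_
    have h3 : (V p a.1 ⊓ V q a.2) ⊓ (V p b.1 ⊓ V q b.2) ≤ c.U (ζ p a.1) ⊓ c.U (ζ q b.2) :=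
      (inf_le_inf inf_le_left inf_le_right).trans (inf_le_inf (hVc p a.1) (hVc q b.2))
    exact (c.cocycle_on (W := (V p a.1 ⊓ V q a.2) ⊓ (V p b.1 ⊓ V q b.2)) _ _ h3).trans
      (c.cocycle_on (W := (V p a.1 ⊓ V q a.2) ⊓ (V p b.1 ⊓ V q b.2)) _ _ h3).symm
  -- glue
  choose Gl hGl using fun p q => exists_glue_units (fun a : I p × I q => V p a.1 ⊓ V q a.2)
    (hOB p q) (hOcov p q) (fun a => res (hOc p q a) (c.g (ζ p a.1) (ζ q a.2)) *
          res (inf_le_right : V p a.1 ⊓ V q a.2 ≤ V q a.2) (h q a.2) *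
          (res (inf_le_left : V p a.1 ⊓ V q a.2 ≤ V p a.1) (h p a.1))⁻¹) (hs p q)
  -- descend
  choose γ hγ using fun p q => hsurj (U p ⊓ U q) (Gl p q)
  have hpull : ∀ p q {W : P.Opens} (e : W ≤ π ⁻¹ᵁ (U p ⊓ U q)),
      pull π e (γ p q) = res e (Gl p q) := by
    intro p q W e
    rw [← hγ, res_pull]
  -- the cocycle on `X`
  have hcoc : ∀ p q r,
      res (inf_le_left : U p ⊓ U q ⊓ U r ≤ U p ⊓ U q) (γ p q) *
        res (le_inf (inf_le_left.trans inf_le_right) inf_le_right :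
          U p ⊓ U q ⊓ U r ≤ U q ⊓ U r) (γ q r) =
        res (le_inf (inf_le_left.trans inf_le_left) inf_le_right :
          U p ⊓ U q ⊓ U r ≤ U p ⊓ U r) (γ p r) := by
    intro p q r
    apply hinj
    simp only [map_mul, pull_res, hpull]
    -- check locally on `V p i ⊓ V q i' ⊓ V r i''`
    have hO3 : ∀ a : I p × I q × I r,
        V p a.1 ⊓ V q a.2.1 ⊓ V r a.2.2 ≤ π ⁻¹ᵁ (U p ⊓ U q ⊓ U r) := fun a =>
      le_inf (le_inf (inf_le_left.trans (inf_le_left.trans (hVU p a.1)))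
        (inf_le_left.trans (inf_le_right.trans (hVU q a.2.1)))) (inf_le_right.trans (hVU r a.2.2))
    refine eq_of_res_eq (fun a : I p × I q × I r => V p a.1 ⊓ V q a.2.1 ⊓ V r a.2.2) hO3
      ?_ _ _ fun a => ?_
    · intro z hz
      obtain ⟨i, hi⟩ := hζ p z hz.1.1
      obtain ⟨i', hi'⟩ := hζ q z hz.1.2
      obtain ⟨i'', hi''⟩ := hζ r z hz.2
      exact ⟨(i, i', i''), ⟨hi ▸ hV p i, hi' ▸ hV q i'⟩, hi'' ▸ hV r i''⟩
    · simp only [map_mul, res_res]
      have e1 := congrArg (res (inf_le_left :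
        V p a.1 ⊓ V q a.2.1 ⊓ V r a.2.2 ≤ V p a.1 ⊓ V q a.2.1)) (hGl p q (a.1, a.2.1))
      have e2 := congrArg (res (le_inf (inf_le_left.trans inf_le_right) inf_le_right :
        V p a.1 ⊓ V q a.2.1 ⊓ V r a.2.2 ≤ V q a.2.1 ⊓ V r a.2.2)) (hGl q r (a.2.1, a.2.2))
      have e3 := congrArg (res (le_inf (inf_le_left.trans inf_le_left) inf_le_right :
        V p a.1 ⊓ V q a.2.1 ⊓ V r a.2.2 ≤ V p a.1 ⊓ V r a.2.2)) (hGl p r (a.1, a.2.2))
      simp only [map_mul, map_inv, res_res] at e1 e2 e3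
      rw [e1, e2, e3]
      exact descent_aux₂ (c.cocycle_on _ _ _)
  let d : Cocycle X := ⟨U, hU, γ, hcoc⟩
  refine ⟨d, ?_⟩
  rw [map_cl, cl_eq_cl]
  -- choice of an index for every point of `P`
  choose idx hidx using fun z : P => hζ (π z) z (hU (π z))
  refine ⟨fun z => V (π z) (idx z), fun z => by
      have := hV (π z) (idx z)
      rwa [hidx z] at this,
    fun z => (hVc (π z) (idx z)).trans (le_of_eq (congrArg c.U (hidx z))),
    fun z => hVU (π z) (idx z), fun z => h (π z) (idx z), fun z z' => ?_⟩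
  have e1 := hGl (π z) (π z') (idx z, idx z')
  have e2 : res (inf_le_inf (hVU (π z) (idx z)) (hVU (π z') (idx z')))
      ((d.pullback π).g z z') = res (hOB (π z) (π z') (idx z, idx z')) (Gl (π z) (π z')) := by
    rw [res_pull]
    exact hpull _ _ _
  rw [e2, e1, c.res_g_congr (hidx z).symm (hidx z').symm _
    (hOc (π z) (π z') (idx z, idx z'))]
  exact descent_aux₃ _ _ _

end

end Fermat.Agent.S26.Pic
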