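import Fermat.Agent.S26.Pic.Sections

/-!
# Row S26, block PIC: gluing of functions and units (helper347)

Sheaf property of `𝒪_X` and `𝒪_Xˣ` in the language of `resR` / `res`.
-/

set_option autoImplicit false

open AlgebraicGeometry CategoryTheory TopologicalSpace Opposite

universe u

namespace Fermat.Agent.S26.Pic

noncomputable section

variable {X : Scheme.{u}}

/-- Functions which agree locally are equal. -/
lemma eq_of_resR_eq {ι : Type*} {B : X.Opens} (O : ι → X.Opens) (hO : ∀ i, O i ≤ B)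
    (hcov : ∀ z ∈ B, ∃ i, z ∈ O i) (a b : Γ(X, B))
    (h : ∀ i, resR (hO i) a = resR (hO i) b) : a = b :=
  X.sheaf.eq_of_locally_eq' O B (fun i => homOfLE (hO i))
    (fun z hz => by
      obtain ⟨i, hi⟩ := hcov z hz
      exact Opens.mem_iSup.mpr ⟨i, hi⟩) a b h

/-- Units which agree locally are equal. -/
lemma eq_of_res_eq {ι : Type*} {B : X.Opens} (O : ι → X.Opens) (hO : ∀ i, O i ≤ B)
    (hcov : ∀ z ∈ B, ∃ i, z ∈ O i) (a b : Γ(X, B)ˣ)
    (h : ∀ i, res (hO i) a = res (hO i) b) : a = b :=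
  Units.ext (eq_of_resR_eq O hO hcov _ _ fun i => congrArg Units.val (h i))

/-- Gluing of functions. -/
lemma exists_glue {ι : Type*} {B : X.Opens} (O : ι → X.Opens) (hO : ∀ i, O i ≤ B)
    (hcov : ∀ z ∈ B, ∃ i, z ∈ O i) (s : ∀ i, Γ(X, O i))
    (hs : ∀ i k, resR (inf_le_left : O i ⊓ O k ≤ O i) (s i) =
      resR (inf_le_right : O i ⊓ O k ≤ O k) (s k)) :
    ∃ a : Γ(X, B), ∀ i, resR (hO i) a = s i := by
  obtain ⟨a, ha, -⟩ := X.sheaf.existsUnique_gluing' O B (fun i => homOfLE (hO i))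
    (fun z hz => by
      obtain ⟨i, hi⟩ := hcov z hz
      exact Opens.mem_iSup.mpr ⟨i, hi⟩) s (fun i k => hs i k)
  exact ⟨a, ha⟩

/-- Gluing of units. -/
lemma exists_glue_units {ι : Type*} {B : X.Opens} (O : ι → X.Opens) (hO : ∀ i, O i ≤ B)
    (hcov : ∀ z ∈ B, ∃ i, z ∈ O i) (s : ∀ i, Γ(X, O i)ˣ)
    (hs : ∀ i k, res (inf_le_left : O i ⊓ O k ≤ O i) (s i) =
      res (inf_le_right : O i ⊓ O k ≤ O k) (s k)) :
    ∃ a : Γ(X, B)ˣ, ∀ i, res (hO i) a = s i := by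
  obtain ⟨a, ha⟩ := exists_glue O hO hcov (fun i => (s i : Γ(X, O i)))
    (fun i k => congrArg Units.val (hs i k))
  obtain ⟨b, hb⟩ := exists_glue O hO hcov (fun i => ((s i)⁻¹ : Γ(X, O i)ˣ))
    (fun i k => by
      have := congrArg (fun u : Γ(X, O i ⊓ O k)ˣ => ((u⁻¹ : Γ(X, O i ⊓ O k)ˣ) : Γ(X, O i ⊓ O k)))
        (hs i k)
      simp only [← map_inv] at this
      exact this)
  have hab : a * b = 1 := eq_of_resR_eq O hO hcov _ _ fun i => by
    rw [map_mul, ha, hb, map_one, Units.mul_inv]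
  have hba : b * a = 1 := by rw [mul_comm, hab]
  exact ⟨⟨a, b, hab, hba⟩, fun i => Units.ext (ha i)⟩

end

end Fermat.Agent.S26.Pic
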