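import Fermat.Agent.S26.Pic.Descent
import Fermat.Agent.S26.SpecCube

/-!
# Row S26, block PIC, P4: `Stmt.LocalOnBase` for the Čech model, formal half (helper347)

`SectionsOnProduct K` : for `W` proper and geometrically integral over `K`, functions on
`pr₁⁻¹ U ⊆ X ×_K W` are the functions on `U` (= S25 `H205.isIso_snd_app` up to symmetry).
`localOnBase_of_sections : SectionsOnProduct K → Stmt.LocalOnBase cechPic K`.
-/

set_option autoImplicit false

open AlgebraicGeometry CategoryTheory CategoryTheory.Limits TopologicalSpace Opposite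

universe u

namespace Fermat.Agent.S26.Pic

noncomputable section

/-- Functions on `pr₁⁻¹ U ⊆ X ×_K W` are the functions on `U`, for `W` proper and geometrically
integral over `K`. -/
def SectionsOnProduct (K : Type u) [Field K] : Prop :=
  ∀ (X W : Scheme.{u}) (x : X ⟶ Spec (CommRingCat.of K)) (w : W ⟶ Spec (CommRingCat.of K))
    [IsProper w] [GeometricallyIntegral w] (U : X.Opens),
    Function.Bijective ((pullback.fst x w).app U).hom

section Units

variable {P X : Scheme.{u}} (π : P ⟶ X)

lemma pull_eq_units_map_app (U : X.Opens) :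
    pull π (le_refl (π ⁻¹ᵁ U)) = Units.map (π.app U).hom.toMonoidHom := by
  ext a
  simp only [pull, Units.coe_map, MonoidHom.coe_coe]
  rw [Scheme.Hom.app_eq_appLE]
  rfl

lemma pull_injective_of_bijective (U : X.Opens) (h : Function.Bijective (π.app U).hom) :
    Function.Injective (pull π (le_refl (π ⁻¹ᵁ U))) := by
  rw [pull_eq_units_map_app]
  exact Units.map_injective h.1

lemma pull_surjective_of_bijective (U : X.Opens) (h : Function.Bijective (π.app U).hom) :
    Function.Surjective (pull π (le_refl (π ⁻¹ᵁ U))) := by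
  rw [pull_eq_units_map_app]
  intro b
  let e := RingEquiv.ofBijective (π.app U).hom h
  refine ⟨Units.map e.symm.toRingHom.toMonoidHom b, ?_⟩
  apply Units.ext
  simp only [Units.coe_map, MonoidHom.coe_coe]
  exact e.apply_symm_apply _

end Units

variable {K : Type u} [Field K]

lemma inl_fst {X W : Scheme.{u}} (x : X ⟶ Spec (CommRingCat.of K))
    (w : W ⟶ Spec (CommRingCat.of K)) (w₀ : KPt w) :
    inl x w w₀ ≫ pullback.fst x w = 𝟙 X := by
  rw [inl, pullback.lift_fst]

lemma range_prodMapLeft {X W : Scheme.{u}} (x : X ⟶ Spec (CommRingCat.of K))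
    (w : W ⟶ Spec (CommRingCat.of K)) (U : X.Opens) :
    Set.range (prodMapLeft x (U.ι ≫ x) w U.ι rfl) = pullback.fst x w ⁻¹' (U : Set X) := by
  rw [prodMapLeft, Scheme.Pullback.range_map]
  simp

/-- **P4, formal half.** -/
theorem localOnBase_of_sections [IsAlgClosed K] (hGS : SectionsOnProduct K) :
    Stmt.LocalOnBase cechPic.{u} K := by
  intro X W x w _ _ w₀ N hN
  obtain ⟨c, rfl⟩ := cl_surjective N
  choose U hpU hU using hN
  have hj : ∀ p, IsOpenImmersion (prodMapLeft x ((U p).ι ≫ x) w (U p).ι rfl) := fun p => by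
    unfold prodMapLeft; infer_instance
  have hran : ∀ p, ((prodMapLeft x ((U p).ι ≫ x) w (U p).ι rfl).opensRange : Set _) =
      pullback.fst x w ⁻¹' (U p : Set X) := fun p => range_prodMapLeft x w (U p)
  choose V' hmem hle hV'r h H using fun p =>
    (map_cl_eq_zero_iff (prodMapLeft x ((U p).ι ≫ x) w (U p).ι rfl) c).mp (hU p)
  obtain ⟨d, hd⟩ := exists_descent (pullback.fst x w)
    (fun U => pull_injective_of_bijective _ U (hGS X W x w U))
    (fun U => pull_surjective_of_bijective _ U (hGS X W x w U))
    c U hpU (fun p => ↥(pullback ((U p).ι ≫ x) w))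
    (fun p v => prodMapLeft x ((U p).ι ≫ x) w (U p).ι rfl v)
    (fun p z hz => by
      have : z ∈ Set.range (prodMapLeft x ((U p).ι ≫ x) w (U p).ι rfl) := by
        rw [range_prodMapLeft]; exact hz
      exact this)
    V' hmem hle
    (fun p v z hz => by
      have := hV'r p v hz
      have h2 : z ∈ ((prodMapLeft x ((U p).ι ≫ x) w (U p).ι rfl).opensRange : Set _) := this
      rw [hran p] at h2
      exact h2)
    h H
  rw [hd, ← cechPic.map_comp (inl x w w₀), inl_fst, cechPic.map_id]

end

end Fermat.Agent.S26.Pic
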