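import Fermat.Agent.S26.Pic.P4
import Fermat.Agent.S25.H205.GlobalSections

/-!
# Row S26, block PIC, P4: `Stmt.LocalOnBase cechPic K` (helper347)

`sectionsOnProduct` (from S25 `H205.isIso_snd_app`, by symmetry of the fibre product) and
`localOnBase : Stmt.LocalOnBase cechPic K`.
-/

set_option autoImplicit false

open AlgebraicGeometry CategoryTheory CategoryTheory.Limits TopologicalSpace Opposite

universe u

namespace Fermat.Agent.S26.Pic

noncomputable section

variable (K : Type u) [Field K] [IsAlgClosed K]

/-- Functions on `pr₁⁻¹ U ⊆ X ×_K W` are the functions on `U`. -/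
theorem sectionsOnProduct : SectionsOnProduct K := by
  intro X W x w _ _ U
  haveI : IsIntegral W := GeometricallyIntegral.isIntegral_of_subsingleton w
  have h1 : IsIso ((pullback.snd w x).app U) := Fermat.Agent.S25.H205.isIso_snd_app K w x U
  have h2 : pullback.fst x w = (pullbackSymmetry x w).hom ≫ pullback.snd w x := by simp
  have h3 : IsIso ((pullback.fst x w).app U) := by
    rw [Scheme.Hom.congr_app h2 U, Scheme.Hom.comp_app]
    have h4 : IsIso ((pullbackSymmetry x w).hom.app (pullback.snd w x ⁻¹ᵁ U)) := inferInstance
    have h5 : IsIso ((pullback.snd w x).app U ≫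
        (pullbackSymmetry x w).hom.app (pullback.snd w x ⁻¹ᵁ U)) := IsIso.comp_isIso' h1 h4
    exact IsIso.comp_isIso' h5 inferInstance
  exact ConcreteCategory.bijective_of_isIso _

/-- **P4** for the Čech model. -/
theorem localOnBase : Stmt.LocalOnBase cechPic.{u} K :=
  localOnBase_of_sections (sectionsOnProduct K)

end

end Fermat.Agent.S26.Pic
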